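import Fermat.Agent.MazI.FreyPlace
import Fermat.Agent.MazX.Global
import Fermat.Agent.ECP.StableLine
import Fermat.Agent.SEL.Val
import Fermat.Agent.Frob.Exists
import Fermat.Agent.QuadRep.RootsOfUnity

set_option autoImplicit false

/-!
# Local properties of the Frey curve
-/

namespace Fermat.Agent.MazI

open WeierstrassCurve WeierstrassCurve.Affine WeierstrassCurve.Affine.Point
open Fermat.Agent.EC (IsInt InE1 xX xZ TrivMod NS comp nrm IsKummer F0 F1 F2)
open Fermat.Agent.ECP Fermat.Agent.MazX

local notation "Qb" => AlgebraicClosure ℚ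
local notation "GQ" => AlgebraicClosure ℚ ≃ₐ[ℚ] AlgebraicClosure ℚ

open scoped Pointwise in
/-- Elements of the decomposition group preserve the valuation (algebraic extensions). -/
theorem valuation_smul_eq_dec {k L : Type*} [Field k] [Field L] [Algebra k L]
    [Algebra.IsAlgebraic k L]
    (A : ValuationSubring L) {σ : L ≃ₐ[k] L} (hσ : σ ∈ A.decompositionSubgroup k) (x : L) :
    A.valuation (σ x) = A.valuation x := by
  have hmem : (σ • A : ValuationSubring L) = A := hσ
  set s : L ≃ₐ[k] L := σ with hs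
  have hA : ∀ y, s y ∈ A ↔ y ∈ A := by
    intro y
    constructor
    · intro h
      have : s • y ∈ s • A := by rw [hmem]; exact h
      exact (ValuationSubring.smul_mem_pointwise_smul_iff).mp this
    · intro h
      have : s • y ∈ s • A := (ValuationSubring.smul_mem_pointwise_smul_iff).mpr h
      rw [hmem] at this
      exact this
  have hle : ∀ y z, A.valuation (s y) ≤ A.valuation (s z) ↔ A.valuation y ≤ A.valuation z := by
    intro y z
    by_cases hz : z = 0
    · subst hz
      simp
    · have hz' : s z ≠ 0 := by simpa using hz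
      have p1 : 0 < A.valuation z :=
        lt_of_le_of_ne zero_le (Ne.symm (A.valuation.ne_zero_iff.mpr hz))
      have p2 : 0 < A.valuation (s z) :=
        lt_of_le_of_ne zero_le (Ne.symm (A.valuation.ne_zero_iff.mpr hz'))
      rw [← div_le_one₀ p1, ← div_le_one₀ p2, ← map_div₀, ← map_div₀, ← map_div₀,
        A.valuation_le_one_iff, A.valuation_le_one_iff]
      exact hA _
  -- the orbit of `x` is finite
  obtain ⟨n, hn, hx⟩ : ∃ n : ℕ, 0 < n ∧ (s ^ n) x = x := by
    have hfin : ((minpoly k x).rootSet L).Finite := (minpoly k x).rootSet_finite L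
    have hmaps : ∀ n : ℕ, (s ^ n) x ∈ (minpoly k x).rootSet L := by
      intro n
      rw [Polynomial.mem_rootSet]
      refine ⟨minpoly.ne_zero (Algebra.IsIntegral.isIntegral x), ?_⟩
      have := Polynomial.aeval_algHom_apply ((s ^ n : L ≃ₐ[k] L) : L →ₐ[k] L) x (minpoly k x)
      rw [minpoly.aeval, _root_.map_zero] at this
      exact this
    obtain ⟨i, -, j, -, hij, hijx⟩ := Set.infinite_univ.exists_ne_map_eq_of_mapsTo
      (s := Set.univ) (t := (minpoly k x).rootSet L) (f := fun n : ℕ => (s ^ n) x)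
      (fun n _ => hmaps n) hfin
    have haux : ∀ i j : ℕ, i < j → (s ^ i) x = (s ^ j) x → ∃ n : ℕ, 0 < n ∧ (s ^ n) x = x := by
      intro i j hlt h
      refine ⟨j - i, by omega, ?_⟩
      have : j = i + (j - i) := by omega
      rw [this, pow_add] at h
      exact ((s ^ i).injective h).symm
    rcases lt_or_gt_of_ne hij with hlt | hlt
    · exact haux i j hlt hijx
    · exact haux j i hlt hijx.symm
  rcases lt_trichotomy (A.valuation (s x)) (A.valuation x) with hlt | heq | hlt
  · exfalso
    have h1 : ∀ m : ℕ, 0 < m → A.valuation ((s ^ m) x) < A.valuation x := by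
      intro m hm
      induction m with
      | zero => omega
      | succ m ih =>
        rcases Nat.eq_zero_or_pos m with rfl | hm'
        · simpa using hlt
        · have h2 := ih hm'
          have h3 : A.valuation (s ((s ^ m) x)) < A.valuation (s x) := by
            rw [← not_le, hle, not_le]; exact h2
          rw [pow_succ']
          exact h3.trans hlt
    have := h1 n hn
    rw [hx] at this
    exact lt_irrefl _ this
  · exact heq
  · exfalso
    have h1 : ∀ m : ℕ, 0 < m → A.valuation x < A.valuation ((s ^ m) x) := by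
      intro m hm
      induction m with
      | zero => omega
      | succ m ih =>
        rcases Nat.eq_zero_or_pos m with rfl | hm'
        · simpa using hlt
        · have h2 := ih hm'
          have h3 : A.valuation (s x) < A.valuation (s ((s ^ m) x)) := by
            rw [← not_le, hle, not_le]; exact h2
          rw [pow_succ']
          exact hlt.trans h3
    have := h1 n hn
    rw [hx] at this
    exact lt_irrefl _ this

variable (P : FreyPackage)

/-- kernel of reduction of the Frey curve -/
noncomputable abbrev E1P (A : ValuationSubring Qb) : AddSubgroup (P.freyCurve⁄Qb).Point :=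
  E1 A.valuation (frey_isInt P A.valuation)

theorem smul_mem_E1 {A : ValuationSubring Qb} {σ : GQ} (hσ : σ ∈ A.decompositionSubgroup ℚ)
    {x : (P.freyCurve⁄Qb).Point} (hx : x ∈ E1P P A) : σ • x ∈ E1P P A := by
  by_cases h0 : x = 0
  · rw [h0]
    have : σ • (0 : (P.freyCurve⁄Qb).Point) = 0 := rfl
    rw [this]; exact zero_mem _
  have h1 : σ • x ≠ 0 := fun h => h0 ((smul_eq_zero_iff_eq σ).mp h)
  rw [mem_E1_iff' _ h0] at hx
  rw [mem_E1_iff' _ h1, xc_smul σ h0, valuation_smul_eq_dec A hσ]
  exact hx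

theorem smul_sub_mem_E1_good {A : ValuationSubring Qb}
    (hΔ : A.valuation (P.freyCurve⁄Qb).Δ = 1) {σ : GQ} (hσ : σ ∈ A.inertiaSubgroupIn ℚ)
    (x : (P.freyCurve⁄Qb).Point) : σ • x - x ∈ E1P P A := by
  have hTM : TrivMod A.valuation σ := EC.trivMod_of_mem_inertia A hσ
  refine EC.smul_sub_inE1 (frey_isInt P A.valuation) hTM x (fun h => ?_)
  rcases x with _ | ⟨x, y, h'⟩
  · simp [← zero_def] at h
  · exact (frey_isInt P A.valuation).ns_of_Δ hΔ (by simpa using h)

theorem smul_sub_mem_E0' {A : ValuationSubring Qb} {e' t' : ℚ} {β : Qb}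
    (h : NodeData A.valuation (P.freyCurve⁄Qb) (algebraMap ℚ Qb e') (algebraMap ℚ Qb t') β)
    {σ : GQ} (hσ : σ ∈ A.inertiaSubgroupIn ℚ) {m : ℕ} (hm : Odd m)
    {x : (P.freyCurve⁄Qb).Point} (hx : m • x = 0) : σ • x - x ∈ h.E0 :=
  h.smul_sub_mem_E0_of_torsion (EC.trivMod_of_mem_inertia A hσ) (fun x => valuation_smul_eq A hσ x)
    (σ.commutes e') (σ.commutes t') hm hx

theorem smul_sub_mem_E1' {A : ValuationSubring Qb} {e t β : Qb}
    (h : NodeData A.valuation (P.freyCurve⁄Qb) e t β)
    {σ : GQ} (hσ : σ ∈ A.inertiaSubgroupIn ℚ)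
    {x : (P.freyCurve⁄Qb).Point} (hx : x ∈ h.E0) : σ • x - x ∈ E1P P A :=
  h.smul_sub_mem_E1 (EC.trivMod_of_mem_inertia A hσ) hx

/-- inertia acts unipotently modulo `E₁` -/
theorem unip {q : ℕ} (hq : q.Prime) {A : ValuationSubring Qb} (hA : A.LiesOverPrime q) {σ : GQ}
    (hσ : σ ∈ A.inertiaSubgroupIn ℚ) {m : ℕ} (hm : Odd m) {x : (P.freyCurve⁄Qb).Point}
    (hx : m • x = 0) : σ • (σ • x - x) - (σ • x - x) ∈ E1P P A := by
  rcases frey_place P hq hA with h | ⟨e', t', β, h⟩
  · exact smul_sub_mem_E1_good P h hσ _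
  · exact smul_sub_mem_E1' P h hσ (smul_sub_mem_E0' P h hσ hm hx)

theorem eq_zero_of_mem_E1' {q : ℕ} (hq : q.Prime) {A : ValuationSubring Qb}
    (hA : A.LiesOverPrime q) {m : ℕ} (hm : ¬ q ∣ m) {x : (P.freyCurve⁄Qb).Point}
    (hx : x ∈ E1P P A) (hmx : m • x = 0) : x = 0 :=
  (frey_isInt P A.valuation).eq_zero_of_inE1 ((mem_E1_iff _).mp hx)
    (val_nat_eq_one_of_not_dvd hq (A.mem_nonunits_iff.mp hA) hm) hmx

end Fermat.Agent.MazI
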