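import Fermat.Agent.ECP.FreyLocal

set_option autoImplicit false

/-!
# The Frey curve at a place: good reduction or a rational node
-/

namespace Fermat.Agent.MazI

open WeierstrassCurve WeierstrassCurve.Affine WeierstrassCurve.Affine.Point
open Fermat.Agent.EC (IsInt InE1 xX xZ TrivMod NS comp nrm IsKummer F0 F1 F2)
open Fermat.Agent.ECP

local notation "Qb" => AlgebraicClosure ℚ

variable (P : FreyPackage)

/-- Good reduction or a rational node at every place. -/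
theorem frey_place {q : ℕ} (hq : q.Prime) {A : ValuationSubring Qb} (hA : A.LiesOverPrime q) :
    A.valuation (P.freyCurve⁄Qb).Δ = 1 ∨ ∃ (e' t' : ℚ) (β : Qb),
      NodeData A.valuation (P.freyCurve⁄Qb) (algebraMap ℚ Qb e') (algebraMap ℚ Qb t') β := by
  set v := A.valuation with hvdef
  have hvq : v (q : Qb) < 1 := A.mem_nonunits_iff.mp hA
  have hqZ : Prime (q : ℤ) := Int.prime_iff_natAbs_prime.mpr (by simpa using hq)
  have hp0 : P.p ≠ 0 := P.hp0
  have hnode : ∀ e t β : Qb, (∃ e' t' : ℚ, e = algebraMap ℚ Qb e' ∧ t = algebraMap ℚ Qb t') →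
      NodeData v (P.freyCurve⁄Qb) e t β → (v (P.freyCurve⁄Qb).Δ = 1 ∨ ∃ (e' t' : ℚ) (β : Qb),
      NodeData v (P.freyCurve⁄Qb) (algebraMap ℚ Qb e') (algebraMap ℚ Qb t') β) := by
    rintro e t β ⟨e', t', rfl, rfl⟩ h
    exact Or.inr ⟨e', t', β, h⟩
  have cab : ¬ ((q : ℤ) ∣ P.a ∧ (q : ℤ) ∣ P.b) := by
    rintro ⟨h1, h2⟩
    have h3 := dvd_gcd h1 h2
    rw [P.hgcdab] at h3
    exact hqZ.not_isUnit (isUnit_of_dvd_one h3)
  have cac : ¬ ((q : ℤ) ∣ P.a ∧ (q : ℤ) ∣ P.c) := by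
    rintro ⟨h1, h2⟩
    have h3 := dvd_gcd h1 h2
    rw [P.hgcdac] at h3
    exact hqZ.not_isUnit (isUnit_of_dvd_one h3)
  by_cases hq2 : q = 2
  · subst hq2
    have hv2 : v (2 : Qb) < 1 := by exact_mod_cast hvq
    have hva : v (P.a : Qb) = 1 := EC.val_odd hv2 (frey_not_two_dvd_a P)
    have hvb : v (P.b : Qb) < 1 := EC.val_even hv2 (frey_two_dvd_b P)
    refine hnode 0 0 (-((P.a : Qb) ^ P.p) * ((P.b : Qb) ^ P.p) / 16) ⟨0, 0, by simp, by simp⟩
      (frey_node_zero P v ?_ ?_)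
    · obtain ⟨c, hc⟩ := frey_dvd_b_pow P
      have : -((P.a : Qb) ^ P.p) * ((P.b : Qb) ^ P.p) / 16 = 2 * ((-(P.a ^ P.p) * c : ℤ) : Qb) := by
        have h6 : ((P.b ^ P.p : ℤ) : Qb) = ((32 * c : ℤ) : Qb) := by rw [hc]
        push_cast at h6 ⊢
        rw [h6]
        ring
      rw [this, map_mul]
      exact lt_of_le_of_lt (mul_le_of_le_one_right' (EC.val_intCast_le_one v _)) hv2
    · rw [Valuation.map_sub_eq_of_lt_right v, map_pow, hva, one_pow]
      rw [map_pow, map_pow, hva, one_pow]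
      exact pow_lt_one₀ zero_le hvb hp0
  have hv2 : v (2 : Qb) = 1 := by
    have : ¬ (q : ℤ) ∣ (2 : ℤ) := by
      intro h
      exact hq2 ((Nat.prime_dvd_prime_iff_eq hq Nat.prime_two).mp (by exact_mod_cast h))
    exact_mod_cast S05.val_int_eq_one hq hvq this
  have hv4 : v (4 : Qb) = 1 := by
    have : (4 : Qb) = 2 ^ 2 := by norm_num
    rw [this, map_pow, hv2, one_pow]
  have hv16 : v (16 : Qb) = 1 := by
    have : (16 : Qb) = 2 ^ 4 := by norm_num
    rw [this, map_pow, hv2, one_pow]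
  by_cases hqa : (q : ℤ) ∣ P.a
  · have hva1 : v (P.a : Qb) < 1 := S05.val_int_lt_one hvq hqa
    have hvb1 : v (P.b : Qb) = 1 := S05.val_int_eq_one hq hvq (fun h => cab ⟨hqa, h⟩)
    have hA1 : v ((P.a : Qb) ^ P.p) < 1 := by rw [map_pow]; exact pow_lt_one₀ zero_le hva1 hp0
    have hB1 : v ((P.b : Qb) ^ P.p) = 1 := by rw [map_pow, hvb1, one_pow]
    refine hnode 0 0 (-((P.a : Qb) ^ P.p) * ((P.b : Qb) ^ P.p) / 16) ⟨0, 0, by simp, by simp⟩
      (frey_node_zero P v ?_ ?_)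
    · rw [map_div₀, hv16, div_one, map_mul, Valuation.map_neg, hB1, mul_one]
      exact hA1
    · rw [Valuation.map_sub_eq_of_lt_left v, hB1]
      rw [hB1]; exact hA1
  by_cases hqb : (q : ℤ) ∣ P.b
  · have hvb1 : v (P.b : Qb) < 1 := S05.val_int_lt_one hvq hqb
    have hva1 : v (P.a : Qb) = 1 := S05.val_int_eq_one hq hvq hqa
    have hB1 : v ((P.b : Qb) ^ P.p) < 1 := by rw [map_pow]; exact pow_lt_one₀ zero_le hvb1 hp0
    have hA1 : v ((P.a : Qb) ^ P.p) = 1 := by rw [map_pow, hva1, one_pow]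
    refine hnode 0 0 (-((P.a : Qb) ^ P.p) * ((P.b : Qb) ^ P.p) / 16) ⟨0, 0, by simp, by simp⟩
      (frey_node_zero P v ?_ ?_)
    · rw [map_div₀, hv16, div_one, map_mul, Valuation.map_neg, hA1, one_mul]
      exact hB1
    · rw [Valuation.map_sub_eq_of_lt_right v, hA1]
      rw [hA1]; exact hB1
  by_cases hqc : (q : ℤ) ∣ P.c
  · have hvc1 : v (P.c : Qb) < 1 := S05.val_int_lt_one hvq hqc
    have hva1 : v (P.a : Qb) = 1 := S05.val_int_eq_one hq hvq hqa
    have hC1 : v ((P.c : Qb) ^ P.p) < 1 := by rw [map_pow]; exact pow_lt_one₀ zero_le hvc1 hp0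
    have hA1 : v ((P.a : Qb) ^ P.p) = 1 := by rw [map_pow, hva1, one_pow]
    refine hnode ((P.a : Qb) ^ P.p / 4) (-((P.a : Qb) ^ P.p) / 8)
      (((P.a : Qb) ^ P.p) * ((P.c : Qb) ^ P.p) / 16)
      ⟨(P.a : ℚ) ^ P.p / 4, -((P.a : ℚ) ^ P.p) / 8, by simp, by simp⟩
      (frey_node_c P v hv4 ?_ ?_)
    · rw [map_div₀, hv16, div_one, map_mul, hA1, one_mul]
      exact hC1
    · rw [Valuation.map_add_eq_of_lt_left v, hA1]
      rw [hA1]; exact hC1
  · -- good reduction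
    left
    have hva1 : v (P.a : Qb) = 1 := S05.val_int_eq_one hq hvq hqa
    have hvb1 : v (P.b : Qb) = 1 := S05.val_int_eq_one hq hvq hqb
    have hvc1 : v (P.c : Qb) = 1 := S05.val_int_eq_one hq hvq hqc
    have h256 : v (256 : Qb) = 1 := by
      have : (256 : Qb) = 2 ^ 8 := by norm_num
      rw [this, map_pow, hv2, one_pow]
    rw [frey_Δ, map_div₀, h256, div_one]
    simp only [map_mul, map_pow, hva1, hvb1, hvc1, one_pow, one_mul]

end Fermat.Agent.MazI
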