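import Fermat.Agent.S14

set_option autoImplicit false

/-!
# Splitting of extensions of `μ_p` by `ℤ/p`: additive form of S14
-/

namespace Fermat.Agent.MazI

open ExtCitation

local notation "Qb" => AlgebraicClosure ℚ
local notation "GQ" => AlgebraicClosure ℚ ≃ₐ[ℚ] AlgebraicClosure ℚ

/-- the `p`-torsion subgroup -/
def pTor (p : ℕ) (Q : Type) [AddCommGroup Q] : AddSubgroup Q where
  carrier := {x | p • x = 0}
  zero_mem' := smul_zero p
  add_mem' {a b} ha hb := by
    change p • (a + b) = 0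
    change p • a = 0 at ha
    change p • b = 0 at hb
    rw [smul_add, ha, hb, add_zero]
  neg_mem' {a} ha := by
    change p • (-a) = 0
    change p • a = 0 at ha
    rw [smul_neg, ha, neg_zero]

theorem mem_pTor {p : ℕ} {Q : Type} [AddCommGroup Q] {x : Q} : x ∈ pTor p Q ↔ p • x = 0 := Iff.rfl

section Inst

variable {p : ℕ} {Q : Type} [AddCommGroup Q]

instance pTorModule : Module (ZMod p) (pTor p Q) :=
  AddCommGroup.zmodModule (fun x => Subtype.ext x.2)

theorem zmod_smul_eq [Fact p.Prime] (a : ZMod p) (x : pTor p Q) : a • x = a.val • x := by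
  haveI : NeZero p := ⟨(Fact.out : p.Prime).ne_zero⟩
  conv_lhs => rw [← ZMod.natCast_zmod_val a]
  rw [Nat.cast_smul_eq_nsmul]

variable [DistribMulAction GQ Q]

noncomputable instance pTorAction : DistribMulAction GQ (pTor p Q) where
  smul σ x := ⟨σ • (x : Q), by
    rw [mem_pTor, ← smul_comm, (mem_pTor.mp x.2), smul_zero]⟩
  one_smul x := Subtype.ext (one_smul _ _)
  mul_smul σ τ x := Subtype.ext (mul_smul σ τ _)
  smul_zero σ := Subtype.ext (smul_zero σ)
  smul_add σ x y := Subtype.ext (smul_add σ _ _)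

theorem coe_smul_pTor (σ : GQ) (x : pTor p Q) : ((σ • x : pTor p Q) : Q) = σ • (x : Q) := rfl

instance pTorComm [Fact p.Prime] : SMulCommClass GQ (ZMod p) (pTor p Q) where
  smul_comm σ a x := by
    rw [zmod_smul_eq, zmod_smul_eq]
    apply Subtype.ext
    change σ • (((a.val • x : pTor p Q)) : Q) = ((a.val • (σ • x) : pTor p Q) : Q)
    rw [AddSubgroup.coe_nsmul, AddSubgroup.coe_nsmul, coe_smul_pTor, smul_comm]

end Inst

variable {p : ℕ} [Fact p.Prime] {Q : Type} [AddCommGroup Q] [DistribMulAction GQ Q]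

/-- additive form of S14 -/
theorem splits (h3 : 3 ≤ p) (C : AddSubgroup Q) (hCp : ∀ x ∈ C, p • x = 0)
    (hC : Nat.card C = p) (hfix : ∀ σ : GQ, ∀ x ∈ C, σ • x = x)
    (hcard : Nat.card {x : Q // p • x = 0} = p ^ 2)
    (hquot : ∀ (σ : GQ) (x : Q), p • x = 0 → σ • x - (cycloExp p σ) • x ∈ C)
    (hunr : ∀ ℓ : ℕ, ℓ.Prime → ℓ ≠ p → ∀ A : ValuationSubring Qb, A.LiesOverPrime ℓ →
      ∀ σ ∈ A.inertiaSubgroupIn ℚ, ∀ x : Q, p • x = 0 → σ • x = x)
    (hloc : ∀ A : ValuationSubring Qb, A.LiesOverPrime p → ∃ K : AddSubgroup Q,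
      (∀ σ ∈ A.decompositionSubgroup ℚ, ∀ x ∈ K, σ • x ∈ K) ∧
      (∀ x ∈ K, p • x = 0) ∧ (∀ x ∈ C, x ∈ K → x = 0) ∧
      ∀ x, p • x = 0 → ∃ c ∈ C, ∃ k ∈ K, x = c + k)
    (hopen : IsOpen {σ : GQ | ∀ x : Q, p • x = 0 → σ • x = x}) :
    ∃ K : AddSubgroup Q, (∀ σ : GQ, ∀ x ∈ K, σ • x ∈ K) ∧ (∀ x ∈ K, p • x = 0) ∧
      (∀ x ∈ C, x ∈ K → x = 0) ∧ ∀ x, p • x = 0 → ∃ c ∈ C, ∃ k ∈ K, x = c + k := by
  have hpp : p.Prime := Fact.out
  haveI : NeZero p := ⟨hpp.ne_zero⟩
  -- submodules from subgroups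
  let toSub : AddSubgroup Q → Submodule (ZMod p) (pTor p Q) := fun K =>
    { carrier := {x | (x : Q) ∈ K}
      zero_mem' := K.zero_mem
      add_mem' := fun {a b} ha hb => K.add_mem ha hb
      smul_mem' := fun a x hx => by
        change ((a • x : pTor p Q) : Q) ∈ K
        rw [zmod_smul_eq, AddSubgroup.coe_nsmul]
        exact K.nsmul_mem hx _ }
  have hmem : ∀ (K : AddSubgroup Q) (x : pTor p Q), x ∈ toSub K ↔ (x : Q) ∈ K :=
    fun K x => Iff.rfl
  have hcompl : ∀ K : AddSubgroup Q, (∀ x ∈ K, p • x = 0) → (∀ x ∈ C, x ∈ K → x = 0) →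
      (∀ x, p • x = 0 → ∃ c ∈ C, ∃ k ∈ K, x = c + k) → IsCompl (toSub C) (toSub K) := by
    intro K h1 h2 h3
    constructor
    · rw [Submodule.disjoint_def]
      intro x hx hx'
      exact Subtype.ext (h2 _ hx hx')
    · rw [codisjoint_iff, Submodule.eq_top_iff']
      intro x
      obtain ⟨c, hc, k, hk, hck⟩ := h3 x x.2
      rw [Submodule.mem_sup]
      exact ⟨⟨c, hCp c hc⟩, hc, ⟨k, h1 k hk⟩, hk, Subtype.ext hck.symm⟩
  have hadm : IsAdmissibleExtensionCts p (pTor p Q) (toSub C) :=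
    { stable := fun σ x hx => by
        change σ • (x : Q) ∈ C
        rw [hfix σ _ hx]; exact hx
      fixed_sub := fun σ x hx => Subtype.ext (hfix σ _ hx)
      cyclo_quot := fun σ x => by
        have h := hquot σ x x.2
        rw [hmem, Nat.cast_smul_eq_nsmul]
        exact h
      card_sub := (Nat.card_congr
          { toFun := fun x => ⟨((x : pTor p Q) : Q), x.2⟩
            invFun := fun c => ⟨⟨c, hCp c c.2⟩, c.2⟩
            left_inv := fun x => rfl
            right_inv := fun c => rfl }).trans hC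
      card_total := hcard
      unramified_outside := fun ℓ hℓ hℓp A hA σ hσ x =>
        Subtype.ext (hunr ℓ hℓ hℓp A hA σ hσ _ x.2)
      locally_split := fun A hA => by
        obtain ⟨K, h1, h2, h3, h4⟩ := hloc A hA
        exact ⟨toSub K, fun σ hσ x hx => h1 σ hσ _ hx, hcompl K h2 h3 h4⟩
      open_kernel := by
        have : {σ : GQ | ∀ v : pTor p Q, σ • v = v} = {σ : GQ | ∀ x : Q, p • x = 0 → σ • x = x} := by
          ext σ
          constructor
          · intro h x hx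
            exact congrArg Subtype.val (h ⟨x, hx⟩)
          · intro h v
            exact Subtype.ext (h v v.2)
        rw [this]
        exact hopen }
  obtain ⟨C', hC', hcomp⟩ := S14.result (p := p) h3 (pTor p Q) (toSub C) hadm
  refine ⟨C'.toAddSubgroup.map (pTor p Q).subtype, ?_, ?_, ?_, ?_⟩
  · rintro σ _ ⟨x, hx, rfl⟩
    exact ⟨σ • x, hC' σ x hx, rfl⟩
  · rintro _ ⟨x, hx, rfl⟩
    exact x.2
  · rintro _ hx ⟨y, hy, rfl⟩
    have h1 : y ∈ toSub C := hx
    have h2 := Submodule.disjoint_def.mp hcomp.disjoint y h1 hy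
    rw [h2]
    rfl
  · intro x hx
    have h1 : (⟨x, hx⟩ : pTor p Q) ∈ toSub C ⊔ C' := by
      rw [codisjoint_iff.mp hcomp.codisjoint]
      trivial
    obtain ⟨c, hc, k, hk, hck⟩ := Submodule.mem_sup.mp h1
    exact ⟨c, hc, k, ⟨k, hk, rfl⟩, (congrArg Subtype.val hck).symm⟩

end Fermat.Agent.MazI
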