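import Fermat.Agent.MazI.Split

set_option autoImplicit false

/-!
# The inductive step: abstract version
-/

namespace Fermat.Agent.MazI

open ExtCitation

local notation "Qb" => AlgebraicClosure ℚ
local notation "GQ" => AlgebraicClosure ℚ ≃ₐ[ℚ] AlgebraicClosure ℚ

section Card

variable {A B : Type*} [AddCommGroup A] [AddCommGroup B]

theorem card_of_surj (f : A →+ B) (hf : Function.Surjective f) :
    Nat.card f.ker * Nat.card B = Nat.card A := by
  have h1 := AddSubgroup.card_mul_index f.ker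
  rw [AddSubgroup.index_ker, AddMonoidHom.range_eq_top.mpr hf] at h1
  rw [← h1]
  congr 1
  exact Nat.card_congr AddSubgroup.topEquiv.toEquiv.symm

end Card

variable {p : ℕ} [Fact p.Prime]

/-- multiples in a cyclic `p`-group -/
theorem dvd_of_pow_smul {J : Type*} [AddCommGroup J] {g : J} {n : ℕ} (hn : 1 ≤ n)
    (hg : addOrderOf g = p ^ n) {b : ℤ} (hb : ((p : ℤ) ^ (n - 1) * b) • g = 0) : (p : ℤ) ∣ b := by
  have hpp : p.Prime := Fact.out
  have h1 := addOrderOf_dvd_iff_zsmul_eq_zero.mpr hb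
  rw [hg] at h1
  obtain ⟨c, hc⟩ := h1
  refine ⟨c, ?_⟩
  have hp0 : ((p : ℤ) ^ (n - 1)) ≠ 0 := pow_ne_zero _ (by exact_mod_cast hpp.ne_zero)
  apply mul_left_cancel₀ hp0
  rw [hc]
  push_cast
  have : (p : ℤ) ^ n = (p : ℤ) ^ (n - 1) * p := by
    rw [← pow_succ]; congr 1; omega
  rw [this]; ring

/-- **The step.** -/
theorem step (h3 : 3 ≤ p) {J : Type} [AddCommGroup J] [DistribMulAction GQ J]
    (hJ1 : Nat.card {x : J // p • x = 0} = p ^ 2)
    (N : AddSubgroup J) (hNp : ∀ x ∈ N, p • x = 0) (hN : Nat.card N = p)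
    (hcof : ∀ (σ : GQ) (x : J), p • x = 0 → σ • x - x ∈ N)
    (hχ : ∀ (σ : GQ), ∀ x ∈ N, σ • x = cycloExp p σ • x)
    (g : J) {n : ℕ} (hn : 1 ≤ n) (hg : addOrderOf g = p ^ n) (hgN : p ^ (n - 1) • g ∈ N)
    (hst : ∀ σ : GQ, σ • g ∈ AddSubgroup.zmultiples g)
    (hdiv : ∃ y, p • y = g)
    (hunr : ∀ ℓ : ℕ, ℓ.Prime → ℓ ≠ p → ∀ A : ValuationSubring Qb, A.LiesOverPrime ℓ →
      ∀ σ ∈ A.inertiaSubgroupIn ℚ, ∀ x : J, p • x ∈ AddSubgroup.zmultiples g →
        σ • x - x ∈ AddSubgroup.zmultiples g)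
    (hloc : ∀ A : ValuationSubring Qb, A.LiesOverPrime p → ∃ K : AddSubgroup J,
      (∀ σ ∈ A.decompositionSubgroup ℚ, ∀ x ∈ K, σ • x ∈ K) ∧
      (∀ x ∈ K, p • x = 0 → x ∈ N) ∧ ∃ y ∈ K, p • y = g)
    (hopen : IsOpen {σ : GQ | ∀ x : J, p • x ∈ AddSubgroup.zmultiples g →
      σ • x - x ∈ AddSubgroup.zmultiples g}) :
    ∃ g', p • g' = g ∧ ∀ σ : GQ, σ • g' ∈ AddSubgroup.zmultiples g' := by
  have hpp : p.Prime := Fact.out
  set Z := AddSubgroup.zmultiples g with hZ
  have hstZ : ∀ (σ : GQ), ∀ x ∈ Z, σ • x ∈ Z := by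
    rintro σ _ ⟨a, rfl⟩
    have : σ • (a • g) = a • (σ • g) := map_zsmul (DistribSMul.toAddMonoidHom J σ) a g
    change σ • (a • g) ∈ Z
    rw [this]
    exact Z.zsmul_mem (hst σ) a
  -- the quotient with its action
  let act : DistribMulAction GQ (J ⧸ Z) :=
    { smul := fun σ => QuotientAddGroup.map Z Z (DistribSMul.toAddMonoidHom J σ)
        (fun x hx => hstZ σ x hx)
      one_smul := by
        intro v
        obtain ⟨x, rfl⟩ := QuotientAddGroup.mk_surjective v
        change QuotientAddGroup.mk ((1 : GQ) • x) = _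
        rw [one_smul]
      mul_smul := by
        intro σ τ v
        obtain ⟨x, rfl⟩ := QuotientAddGroup.mk_surjective v
        change QuotientAddGroup.mk ((σ * τ) • x) = QuotientAddGroup.mk (σ • τ • x)
        rw [mul_smul]
      smul_zero := by
        intro σ
        exact map_zero (QuotientAddGroup.map Z Z (DistribSMul.toAddMonoidHom J σ)
          (fun x hx => hstZ σ x hx))
      smul_add := by
        intro σ u v
        exact map_add (QuotientAddGroup.map Z Z (DistribSMul.toAddMonoidHom J σ)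
          (fun x hx => hstZ σ x hx)) u v }
  have hsmk : ∀ (σ : GQ) (x : J), σ • (QuotientAddGroup.mk x : J ⧸ Z) =
      QuotientAddGroup.mk (σ • x) := fun σ x => rfl
  have hmk0 : ∀ x : J, (QuotientAddGroup.mk x : J ⧸ Z) = 0 ↔ x ∈ Z := fun x =>
    QuotientAddGroup.eq_zero_iff x
  have hpmk : ∀ x : J, p • (QuotientAddGroup.mk x : J ⧸ Z) = 0 ↔ p • x ∈ Z := by
    intro x
    rw [← QuotientAddGroup.mk_nsmul, hmk0]
  obtain ⟨y, hy⟩ := hdiv
  -- elements of `Z` killed by `p` are in `N`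
  have hZN : ∀ x ∈ Z, p • x = 0 → x ∈ N := by
    rintro _ ⟨a, rfl⟩ hx
    change p • (a • g) = 0 at hx
    change a • g ∈ N
    have h1 : ((p : ℤ) * a) • g = 0 := by
      rw [mul_zsmul, natCast_zsmul]; exact hx
    have h2 := addOrderOf_dvd_iff_zsmul_eq_zero.mpr h1
    rw [hg] at h2
    obtain ⟨c, hc⟩ := h2
    have hp0 : (p : ℤ) ≠ 0 := by exact_mod_cast hpp.ne_zero
    have h3 : a = (p : ℤ) ^ (n - 1) * c := by
      apply mul_left_cancel₀ hp0
      rw [hc]
      push_cast
      have : (p : ℤ) ^ n = p * (p : ℤ) ^ (n - 1) := by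
        rw [← pow_succ']; congr 1; omega
      rw [this]; ring
    rw [h3, mul_comm, mul_zsmul]
    refine N.zsmul_mem ?_ c
    have : ((p : ℤ) ^ (n - 1)) • g = (p ^ (n - 1)) • g := by
      rw [← natCast_zsmul]; push_cast; rfl
    rw [this]
    exact hgN
  have hfinN : Finite N := Nat.finite_of_card_ne_zero (by rw [hN]; exact hpp.ne_zero)
  have hNZ : ∀ x ∈ N, x ∈ Z := by
    -- `p ^ (n-1) • g` generates `N`
    set g0 := p ^ (n - 1) • g with hg0
    have hg0ne : g0 ≠ 0 := by
      intro h0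
      have := addOrderOf_dvd_iff_nsmul_eq_zero.mpr h0
      rw [hg] at this
      have h4 := (Nat.pow_dvd_pow_iff_le_right hpp.one_lt).mp this
      omega
    have hle : AddSubgroup.zmultiples g0 ≤ N := by
      rw [AddSubgroup.zmultiples_le]; exact hgN
    have hcard : Nat.card (AddSubgroup.zmultiples g0) = p := by
      rw [Nat.card_zmultiples]
      have h5 : addOrderOf g0 ∣ p := addOrderOf_dvd_iff_nsmul_eq_zero.mpr (hNp _ hgN)
      rcases (Nat.dvd_prime hpp).mp h5 with h6 | h6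
      · exact absurd (AddMonoid.addOrderOf_eq_one_iff.mp h6) hg0ne
      · exact h6
    have heq : AddSubgroup.zmultiples g0 = N :=
      AddSubgroup.eq_of_le_of_card_ge hle (by rw [hcard, hN])
    intro x hx
    rw [← heq] at hx
    obtain ⟨a, rfl⟩ := hx
    change a • g0 ∈ Z
    exact Z.zsmul_mem (Z.nsmul_mem (AddSubgroup.mem_zmultiples g) _) a
  -- the subgroup `C`
  set C : AddSubgroup (J ⧸ Z) := (pTor p J).map (QuotientAddGroup.mk' Z) with hC
  have hmemC : ∀ x : J, p • x = 0 → (QuotientAddGroup.mk x : J ⧸ Z) ∈ C := fun x hx =>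
    ⟨x, hx, rfl⟩
  have hcardZ : Nat.card Z = p ^ n := by rw [hZ, Nat.card_zmultiples, hg]
  have hpn : 0 < p ^ n := pow_pos hpp.pos n
  have hcardC : Nat.card C = p := by
    let f : pTor p J →+ C :=
      { toFun := fun x => ⟨QuotientAddGroup.mk (x : J), hmemC x x.2⟩
        map_zero' := rfl
        map_add' := fun _ _ => rfl }
    have hf : Function.Surjective f := by
      rintro ⟨_, x, hx, rfl⟩
      exact ⟨⟨x, hx⟩, rfl⟩
    have h1 := card_of_surj f hf
    have h2 : Nat.card f.ker = Nat.card N := by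
      refine Nat.card_congr
        { toFun := fun x => ⟨((x : pTor p J) : J), ?_⟩
          invFun := fun x => ⟨⟨x, hNp x x.2⟩, ?_⟩
          left_inv := fun x => rfl
          right_inv := fun x => rfl }
      · have h3 : f x = 0 := x.2
        exact hZN _ ((hmk0 _).mp (congrArg Subtype.val h3)) x.1.2
      · exact Subtype.ext ((hmk0 _).mpr (hNZ _ x.2))
    have h4 : Nat.card (pTor p J) = p ^ 2 := hJ1
    rw [h2, hN, h4, pow_two] at h1
    exact Nat.eq_of_mul_eq_mul_left hpp.pos h1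
  have hcardQ : Nat.card {x : J ⧸ Z // p • x = 0} = p ^ 2 := by
    let D : AddSubgroup J := Z.comap (DistribSMul.toAddMonoidHom J p)
    have hD : ∀ x, x ∈ D ↔ p • x ∈ Z := fun x => Iff.rfl
    let f1 : D →+ Z :=
      { toFun := fun x => ⟨p • (x : J), x.2⟩
        map_zero' := Subtype.ext (smul_zero p)
        map_add' := fun a b => Subtype.ext (smul_add p (a : J) b) }
    let f2 : D →+ pTor p (J ⧸ Z) :=
      { toFun := fun x => ⟨QuotientAddGroup.mk (x : J), (hpmk _).mpr x.2⟩
        map_zero' := rfl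
        map_add' := fun _ _ => rfl }
    have hf1 : Function.Surjective f1 := by
      rintro ⟨_, a, rfl⟩
      refine ⟨⟨a • y, ?_⟩, Subtype.ext ?_⟩
      · rw [hD, smul_comm, hy]; exact ⟨a, rfl⟩
      · change p • (a • y) = a • g
        rw [smul_comm, hy]
    have hf2 : Function.Surjective f2 := by
      rintro ⟨v, hv⟩
      obtain ⟨x, rfl⟩ := QuotientAddGroup.mk_surjective v
      exact ⟨⟨x, (hpmk x).mp hv⟩, rfl⟩
    have h1 := card_of_surj f1 hf1
    have h2 := card_of_surj f2 hf2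
    have h3 : Nat.card f1.ker = p ^ 2 := by
      refine Eq.trans ?_ hJ1
      refine Nat.card_congr
        { toFun := fun x => ⟨((x : D) : J), congrArg Subtype.val (show f1 x = 0 from x.2)⟩
          invFun := fun x => ⟨⟨x, ?_⟩, Subtype.ext x.2⟩
          left_inv := fun x => rfl
          right_inv := fun x => rfl }
      rw [hD, x.2]; exact Z.zero_mem
    have h4 : Nat.card f2.ker = p ^ n := by
      refine Eq.trans ?_ hcardZ
      refine Nat.card_congr
        { toFun := fun x => ⟨((x : D) : J), (hmk0 _).mp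
            (congrArg Subtype.val (show f2 x = 0 from x.2))⟩
          invFun := fun x => ⟨⟨x, ?_⟩, Subtype.ext ((hmk0 _).mpr x.2)⟩
          left_inv := fun x => rfl
          right_inv := fun x => rfl }
      rw [hD]; exact Z.nsmul_mem x.2 _
    rw [h3, hcardZ] at h1
    rw [h4, ← h1, mul_comm] at h2
    exact Nat.eq_of_mul_eq_mul_right hpn h2
  obtain ⟨K, hKst, hKp, hKC, hKs⟩ := splits (p := p) h3 C (by
      rintro _ ⟨x, hx, rfl⟩
      exact (hpmk x).mpr (by rw [mem_pTor.mp hx]; exact Z.zero_mem)) hcardC (by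
      rintro σ _ ⟨x, hx, rfl⟩
      change (QuotientAddGroup.mk (σ • x) : J ⧸ Z) = QuotientAddGroup.mk x
      rw [← sub_eq_zero, ← QuotientAddGroup.mk_sub, hmk0]
      exact hNZ _ (hcof σ x hx)) hcardQ (by
      intro σ v hv
      obtain ⟨x, rfl⟩ := QuotientAddGroup.mk_surjective v
      rw [hpmk] at hv
      obtain ⟨a, ha⟩ := hv
      have ha' : a • g = p • x := ha
      set k := cycloExp p σ with hk
      -- `σ z - k z = b g`
      have hz : σ • (p • x) - k • (p • x) ∈ Z := by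
        have h1 : p • x ∈ Z := ⟨a, ha⟩
        exact Z.sub_mem (hstZ σ _ h1) (Z.nsmul_mem h1 _)
      obtain ⟨b, hb⟩ := hz
      have hb' : b • g = σ • (p • x) - k • (p • x) := hb
      have hN' : p ^ (n - 1) • (p • x) ∈ N := by
        rw [← ha', smul_comm]
        exact N.zsmul_mem hgN a
      have h0 : p ^ (n - 1) • (b • g) = 0 := by
        rw [hb', smul_sub, smul_comm (p ^ (n - 1)) σ, smul_comm (p ^ (n - 1)) k, hχ σ _ hN',
          sub_self]
      have hpb : (p : ℤ) ∣ b := dvd_of_pow_smul hn hg (by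
        rw [mul_zsmul, ← h0, ← natCast_zsmul]; push_cast; rfl)
      obtain ⟨b', rfl⟩ := hpb
      have h5 : p • (σ • x - k • x - b' • g) = 0 := by
        rw [smul_sub, smul_sub, smul_comm p σ, smul_comm p k, ← hb', mul_zsmul, natCast_zsmul,
          sub_self]
      have h6 := hmemC _ h5
      rw [QuotientAddGroup.mk_sub] at h6
      have h7 : (QuotientAddGroup.mk (b' • g) : J ⧸ Z) = 0 := (hmk0 _).mpr ⟨b', rfl⟩
      rw [h7, sub_zero] at h6
      exact h6) (by
      intro ℓ hℓ hℓp A hA σ hσ v hv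
      obtain ⟨x, rfl⟩ := QuotientAddGroup.mk_surjective v
      rw [hpmk] at hv
      rw [hsmk, ← sub_eq_zero, ← QuotientAddGroup.mk_sub, hmk0]
      exact hunr ℓ hℓ hℓp A hA σ hσ x hv) (by
      intro A hA
      obtain ⟨K, h1, h2, y', hy'K, hy'⟩ := hloc A hA
      refine ⟨(K ⊓ Z.comap (DistribSMul.toAddMonoidHom J p)).map (QuotientAddGroup.mk' Z),
        ?_, ?_, ?_, ?_⟩
      · rintro σ hσ _ ⟨x, ⟨hx1, hx2⟩, rfl⟩
        refine ⟨σ • x, ⟨h1 σ hσ x hx1, ?_⟩, rfl⟩
        change p • (σ • x) ∈ Z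
        rw [smul_comm]
        exact hstZ σ _ hx2
      · rintro _ ⟨x, ⟨hx1, hx2⟩, rfl⟩
        exact (hpmk x).mpr hx2
      · rintro _ ⟨x, hx, rfl⟩ ⟨k, ⟨hk1, hk2⟩, hkx⟩
        have h3 : x - k ∈ Z := by
          rw [← hmk0, QuotientAddGroup.mk_sub, sub_eq_zero]
          exact hkx.symm
        have hZK : ∀ z ∈ Z, z ∈ K := by
          rintro _ ⟨a, rfl⟩
          change a • g ∈ K
          rw [← hy']
          exact K.zsmul_mem (K.nsmul_mem hy'K _) a
        have h4 : x ∈ K := by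
          have := K.add_mem (hZK _ h3) hk1
          rwa [sub_add_cancel] at this
        exact (hmk0 _).mpr (hNZ _ (h2 x h4 hx))
      · intro v hv
        obtain ⟨x, rfl⟩ := QuotientAddGroup.mk_surjective v
        rw [hpmk] at hv
        obtain ⟨a, ha⟩ := hv
        have ha' : a • g = p • x := ha
        refine ⟨QuotientAddGroup.mk (x - a • y'), hmemC _ ?_, QuotientAddGroup.mk (a • y'),
          ⟨a • y', ⟨K.zsmul_mem hy'K a, ?_⟩, rfl⟩, ?_⟩
        · rw [smul_sub, smul_comm p a, hy', ha', sub_self]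
        · change p • (a • y') ∈ Z
          rw [smul_comm, hy']; exact ⟨a, rfl⟩
        · rw [← QuotientAddGroup.mk_add, sub_add_cancel]) (by
      have : {σ : GQ | ∀ v : J ⧸ Z, p • v = 0 → σ • v = v} =
          {σ : GQ | ∀ x : J, p • x ∈ Z → σ • x - x ∈ Z} := by
        ext σ
        constructor
        · intro h x hx
          have := h (QuotientAddGroup.mk x) ((hpmk x).mpr hx)
          rw [hsmk, ← sub_eq_zero, ← QuotientAddGroup.mk_sub, hmk0] at this
          exact this
        · intro h v hv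
          obtain ⟨x, rfl⟩ := QuotientAddGroup.mk_surjective v
          rw [hsmk, ← sub_eq_zero, ← QuotientAddGroup.mk_sub, hmk0]
          exact h x ((hpmk x).mp hv)
      rw [this]
      exact hopen)
  -- the new generator
  obtain ⟨c, ⟨x, hx, rfl⟩, k, hk, hck⟩ := hKs (QuotientAddGroup.mk y)
    ((hpmk y).mpr (by rw [hy]; exact AddSubgroup.mem_zmultiples g))
  have hpx : p • x = 0 := hx
  have hck' : (QuotientAddGroup.mk y : J ⧸ Z) = QuotientAddGroup.mk x + k := hck
  have hkeq : k = QuotientAddGroup.mk (y - x) := by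
    rw [QuotientAddGroup.mk_sub, hck', add_sub_cancel_left]
  have hpg' : p • (y - x) = g := by rw [smul_sub, hy, hpx, sub_zero]
  refine ⟨y - x, hpg', fun σ => ?_⟩
  set g' := y - x with hg'
  have hkmem : (QuotientAddGroup.mk g' : J ⧸ Z) ∈ K := hkeq ▸ hk
  have hσk : (QuotientAddGroup.mk (σ • g') : J ⧸ Z) ∈ K := hKst σ _ hkmem
  have hpσ : p • (σ • g') ∈ Z := by
    rw [smul_comm, hpg']; exact hst σ
  obtain ⟨a, ha⟩ := hpσ
  have ha' : a • g = p • (σ • g') := ha
  have h1 : p • (σ • g' - a • g') = 0 := by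
    rw [smul_sub, smul_comm p a, hpg', ha', sub_self]
  have h2 : (QuotientAddGroup.mk (σ • g' - a • g') : J ⧸ Z) ∈ K := by
    rw [QuotientAddGroup.mk_sub]
    refine K.sub_mem hσk ?_
    rw [QuotientAddGroup.mk_zsmul]
    exact K.zsmul_mem hkmem a
  have h3' := hKC _ (hmemC _ h1) h2
  rw [hmk0] at h3'
  obtain ⟨b, hb⟩ := h3'
  have hb' : b • g = σ • g' - a • g' := hb
  refine ⟨a + b * p, ?_⟩
  change (a + b * (p : ℤ)) • g' = σ • g'
  rw [add_zsmul, mul_zsmul, natCast_zsmul, hpg', hb']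
  abel

end Fermat.Agent.MazI
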